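/-
P-S48 (Deligne-Serre), block (R) = realisability over the prime field (task 343, helper86).

`Mat2.lean`: elementary facts on `2 × 2` matrices over a field, Mathlib only.
-/
import Mathlib

set_option autoImplicit false

open Matrix

namespace Fermat.Agent.S48x.Realise

variable {K : Type*} [Field K]

/-- The kernel of a nonzero linear form on `K²` is the line spanned by `(φ 1, - φ 0)`. -/
theorem exists_smul_of_form_eq_zero {φ w : Fin 2 → K} (hφ : φ ≠ 0)
    (h : φ 0 * w 0 + φ 1 * w 1 = 0) : ∃ c : K, w = c • ![φ 1, -φ 0] := by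
  by_cases h1 : φ 1 = 0
  · have h0 : φ 0 ≠ 0 := by
      intro h0
      apply hφ
      funext i
      fin_cases i <;> simp [h0, h1]
    have hw0 : w 0 = 0 := by
      rw [h1, zero_mul, add_zero] at h
      exact (mul_eq_zero.mp h).resolve_left h0
    refine ⟨-(w 1) / φ 0, ?_⟩
    funext i
    fin_cases i
    · simp [h1, hw0]
    · simp only [Fin.mk_one, Fin.isValue, Pi.smul_apply, cons_val_one, cons_val_fin_one,
        smul_eq_mul]
      field_simp
  · refine ⟨w 0 / φ 1, ?_⟩
    funext i
    fin_cases i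
    · simp only [Fin.zero_eta, Fin.isValue, Pi.smul_apply, cons_val_zero, smul_eq_mul]
      field_simp
    · simp only [Fin.mk_one, Fin.isValue, Pi.smul_apply, cons_val_one, cons_val_fin_one,
        smul_eq_mul]
      field_simp
      linear_combination h

/-- Two vectors of `K²`, the first nonzero, the second not a multiple of the first, have nonzero
determinant. -/
theorem det_ne_zero_of_indep {v w : Fin 2 → K} (hv : v ≠ 0) (h : ∀ c : K, w ≠ c • v) :
    v 0 * w 1 - v 1 * w 0 ≠ 0 := by
  intro h0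
  have hφ : (![-v 1, v 0] : Fin 2 → K) ≠ 0 := by
    intro hφ
    apply hv
    have e0 := congrFun hφ 0
    have e1 := congrFun hφ 1
    simp at e0 e1
    funext i
    fin_cases i <;> simp [e0, e1]
  obtain ⟨c, hc⟩ := exists_smul_of_form_eq_zero (w := w) hφ (by simp; linear_combination h0)
  apply h c
  rw [hc]
  funext i
  fin_cases i <;> simp

/-- Conversely. -/
theorem indep_of_det_ne_zero {v w : Fin 2 → K} (h : v 0 * w 1 - v 1 * w 0 ≠ 0) :
    v ≠ 0 ∧ ∀ c : K, w ≠ c • v := by
  constructor
  · rintro rfl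
    simp at h
  · rintro c rfl
    apply h
    simp only [Pi.smul_apply, smul_eq_mul]
    ring

/-- Cayley-Hamilton for `2 × 2` matrices. -/
theorem mul_self_eq (m : Matrix (Fin 2) (Fin 2) K) :
    m * m = m.trace • m - m.det • (1 : Matrix (Fin 2) (Fin 2) K) := by
  ext i j
  fin_cases i <;> fin_cases j <;>
    simp [Matrix.mul_apply, Fin.sum_univ_two, Matrix.trace_fin_two, Matrix.det_fin_two] <;> ring

/-- For a singular `2 × 2` matrix `N`: `N b N = tr(N b) N`. -/
theorem mul_mul_self_of_det_eq_zero (N b : Matrix (Fin 2) (Fin 2) K) (h : N.det = 0) :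
    N * b * N = (N * b).trace • N := by
  rw [Matrix.det_fin_two] at h
  ext i j
  fin_cases i <;> fin_cases j
  · simp [Matrix.mul_apply, Fin.sum_univ_two, Matrix.trace_fin_two]
    linear_combination (-b 1 1) * h
  · simp [Matrix.mul_apply, Fin.sum_univ_two, Matrix.trace_fin_two]
    linear_combination (b 0 1) * h
  · simp [Matrix.mul_apply, Fin.sum_univ_two, Matrix.trace_fin_two]
    linear_combination (b 1 0) * h
  · simp [Matrix.mul_apply, Fin.sum_univ_two, Matrix.trace_fin_two]
    linear_combination (-b 0 0) * h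

/-- Two independent eigenvectors give the trace. -/
theorem trace_eq_add_of_eigen {m : Matrix (Fin 2) (Fin 2) K} {v w : Fin 2 → K} {a b : K}
    (hD : v 0 * w 1 - v 1 * w 0 ≠ 0) (hv : m *ᵥ v = a • v) (hw : m *ᵥ w = b • w) :
    m.trace = a + b := by
  have hv0 := congrFun hv 0
  have hv1 := congrFun hv 1
  have hw0 := congrFun hw 0
  have hw1 := congrFun hw 1
  simp only [Matrix.mulVec, dotProduct, Fin.sum_univ_two, Pi.smul_apply, smul_eq_mul] at hv0 hv1 hw0 hw1
  rw [Matrix.trace_fin_two]
  apply mul_right_cancel₀ hD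
  linear_combination (w 1) * hv0 - (v 1) * hw0 + (v 0) * hw1 - (w 0) * hv1

/-- Two independent eigenvectors with the same eigenvalue: the matrix is scalar. -/
theorem eq_smul_one_of_eigen {m : Matrix (Fin 2) (Fin 2) K} {v w : Fin 2 → K} {a : K}
    (hD : v 0 * w 1 - v 1 * w 0 ≠ 0) (hv : m *ᵥ v = a • v) (hw : m *ᵥ w = a • w) :
    m = a • (1 : Matrix (Fin 2) (Fin 2) K) := by
  have hv0 := congrFun hv 0
  have hv1 := congrFun hv 1
  have hw0 := congrFun hw 0
  have hw1 := congrFun hw 1
  simp only [Matrix.mulVec, dotProduct, Fin.sum_univ_two, Pi.smul_apply, smul_eq_mul] at hv0 hv1 hw0 hw1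
  ext i j
  fin_cases i <;> fin_cases j
  · simp only [Fin.zero_eta, Fin.isValue, Matrix.smul_apply, one_apply_eq, smul_eq_mul, mul_one]
    apply mul_right_cancel₀ hD
    linear_combination (w 1) * hv0 - (v 1) * hw0
  · simp only [Fin.zero_eta, Fin.isValue, Fin.mk_one, Matrix.smul_apply, ne_eq, zero_ne_one,
      not_false_eq_true, one_apply_ne, smul_eq_mul, mul_zero]
    apply mul_right_cancel₀ hD
    linear_combination (v 0) * hw0 - (w 0) * hv0
  · simp only [Fin.mk_one, Fin.isValue, Fin.zero_eta, Matrix.smul_apply, ne_eq, one_ne_zero,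
      not_false_eq_true, one_apply_ne, smul_eq_mul, mul_zero]
    apply mul_right_cancel₀ hD
    linear_combination (w 1) * hv1 - (v 1) * hw1
  · simp only [Fin.mk_one, Fin.isValue, Matrix.smul_apply, one_apply_eq, smul_eq_mul, mul_one]
    apply mul_right_cancel₀ hD
    linear_combination (v 0) * hw1 - (w 0) * hv1

/-- A non-scalar `2 × 2` matrix has a cyclic vector. -/
theorem exists_cyclic {m : Matrix (Fin 2) (Fin 2) K}
    (hm : ∀ c : K, m ≠ c • (1 : Matrix (Fin 2) (Fin 2) K)) :
    ∃ v : Fin 2 → K, v 0 * (m *ᵥ v) 1 - v 1 * (m *ᵥ v) 0 ≠ 0 := by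
  by_contra hcon
  push Not at hcon
  have h1 := hcon ![1, 0]
  have h2 := hcon ![0, 1]
  have h3 := hcon ![1, 1]
  simp only [Matrix.mulVec, dotProduct, Fin.sum_univ_two, cons_val_zero, cons_val_one,
    cons_val_fin_one] at h1 h2 h3
  apply hm (m 0 0)
  ext i j
  fin_cases i <;> fin_cases j
  · simp
  · simp only [Fin.zero_eta, Fin.isValue, Fin.mk_one, Matrix.smul_apply, ne_eq, zero_ne_one,
      not_false_eq_true, one_apply_ne, smul_eq_mul, mul_zero]
    linear_combination -h2
  · simp only [Fin.mk_one, Fin.isValue, Fin.zero_eta, Matrix.smul_apply, ne_eq, one_ne_zero,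
      not_false_eq_true, one_apply_ne, smul_eq_mul, mul_zero]
    linear_combination h1
  · simp only [Fin.mk_one, Fin.isValue, Matrix.smul_apply, one_apply_eq, smul_eq_mul, mul_one]
    linear_combination h3 - h1 - h2

/-- Entrywise criterion for `m = x • 1 + y • θ`. -/
theorem eq_add_smul_iff (θ m : Matrix (Fin 2) (Fin 2) K) (x y : K) :
    m = x • (1 : Matrix (Fin 2) (Fin 2) K) + y • θ ↔
      m 0 0 = x + y * θ 0 0 ∧ m 0 1 = y * θ 0 1 ∧ m 1 0 = y * θ 1 0 ∧ m 1 1 = x + y * θ 1 1 := by
  rw [← Matrix.ext_iff]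
  simp [Fin.forall_fin_two, Matrix.add_apply, Matrix.smul_apply, and_assoc]

/-- The centraliser of a non-scalar `2 × 2` matrix `θ` is `K + K θ`. -/
theorem exists_eq_add_smul_of_commute {θ m : Matrix (Fin 2) (Fin 2) K}
    (hθ : ∀ c : K, θ ≠ c • (1 : Matrix (Fin 2) (Fin 2) K)) (h : m * θ = θ * m) :
    ∃ x y : K, m = x • (1 : Matrix (Fin 2) (Fin 2) K) + y • θ := by
  have e00 := congrFun (congrFun h 0) 0
  have e01 := congrFun (congrFun h 0) 1
  have e10 := congrFun (congrFun h 1) 0
  have e11 := congrFun (congrFun h 1) 1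
  simp only [Matrix.mul_apply, Fin.sum_univ_two] at e00 e01 e10 e11
  by_cases hb : θ 0 1 = 0
  · by_cases hc : θ 1 0 = 0
    · have had : θ 0 0 - θ 1 1 ≠ 0 := by
        intro had
        apply hθ (θ 0 0)
        have := (eq_add_smul_iff θ θ (θ 0 0) 0).mpr
          ⟨by ring, by rw [hb]; ring, by rw [hc]; ring, by linear_combination -had⟩
        simpa using this
      have hq : m 0 1 = 0 := by
        have : m 0 1 * (θ 0 0 - θ 1 1) = 0 := by
          rw [hb] at e01; linear_combination -e01
        exact (mul_eq_zero.mp this).resolve_right had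
      have hr : m 1 0 = 0 := by
        have : m 1 0 * (θ 0 0 - θ 1 1) = 0 := by
          rw [hc] at e10; linear_combination e10
        exact (mul_eq_zero.mp this).resolve_right had
      refine ⟨m 0 0 - (m 0 0 - m 1 1) / (θ 0 0 - θ 1 1) * θ 0 0,
        (m 0 0 - m 1 1) / (θ 0 0 - θ 1 1), ?_⟩
      rw [eq_add_smul_iff]
      refine ⟨by ring, by rw [hb, hq]; ring, by rw [hc, hr]; ring, ?_⟩
      field_simp
      ring
    · refine ⟨m 0 0 - m 1 0 / θ 1 0 * θ 0 0, m 1 0 / θ 1 0, ?_⟩
      rw [eq_add_smul_iff]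
      refine ⟨by ring, ?_, ?_, ?_⟩
      · field_simp
        linear_combination -e11
      · field_simp
      · field_simp
        linear_combination e10
  · refine ⟨m 0 0 - m 0 1 / θ 0 1 * θ 0 0, m 0 1 / θ 0 1, ?_⟩
    rw [eq_add_smul_iff]
    refine ⟨by ring, ?_, ?_, ?_⟩
    · field_simp
    · field_simp
      linear_combination -e00
    · field_simp
      linear_combination -e01

/-- The basis `(v, θ v)` conjugates `θ` to its companion matrix. -/
theorem mul_cyclic_eq (θ : Matrix (Fin 2) (Fin 2) K) (v : Fin 2 → K) :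
    θ * !![v 0, (θ *ᵥ v) 0; v 1, (θ *ᵥ v) 1] =
      !![v 0, (θ *ᵥ v) 0; v 1, (θ *ᵥ v) 1] * !![0, -θ.det; 1, θ.trace] := by
  ext i j
  fin_cases i <;> fin_cases j <;>
    simp [Matrix.mul_apply, Fin.sum_univ_two, Matrix.mulVec, dotProduct, Matrix.det_fin_two,
      Matrix.trace_fin_two] <;> ring

end Fermat.Agent.S48x.Realise
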