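/-
P-S48 (Deligne-Serre), block (R) = realisability over a subfield (task 343, helper86).

A weakly semisimple two-dimensional representation `ρ : G → GL₂(K)` over a finite field `K` of
characteristic `≠ 2`, all of whose traces lie in a subfield `k`, is conjugate (over `K`) to a
representation with values in `GL₂(k)`.

Proof.  Let `A` be the `k`-span of `ρ(G)`, a finite ring all of whose traces lie in `k`.
* If `ρ(G)` is commutative: a non-scalar `θ = ρ(g₀)` has non-zero discriminant (weak
  semisimplicity), is conjugate to its companion matrix `C ∈ GL₂(k)`, every `ρ(g)` is `x + y θ`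
  and `x, y ∈ k` by Cramer's rule applied to `tr ρ(g)`, `tr ρ(g g₀)`.
* Otherwise, `A` is not a domain (little Wedderburn), so it contains a non-zero singular `N`; weak
  semisimplicity makes `ρ` irreducible, and in the bases `(N e_j, ρ(g₁) N e_j)`,
  `(e_i N, e_i N ρ(g₂))` all matrix entries of `A` are of the form `tr(N b) N_{ij}` with `b ∈ A`.

Mathlib only.
-/
import Mathlib
import Fermat.Agent.S48x.Realise.Mat2

set_option autoImplicit false

open Matrix

namespace Fermat.Agent.S48x.Realise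

variable {k K G : Type*} [Field k] [Field K] [Algebra k K] [Group G]

/-- Weak semisimplicity of a two-dimensional matrix representation (matrix-valued form): every
common eigenvector has an independent common eigenvector. -/
def WeakSSMat (r : G →* Matrix (Fin 2) (Fin 2) K) : Prop :=
  ∀ v : Fin 2 → K, v ≠ 0 → (∀ g : G, ∃ c : K, r g *ᵥ v = c • v) →
    ∃ w : Fin 2 → K, (∀ c : K, w ≠ c • v) ∧ ∀ g : G, ∃ c : K, r g *ᵥ w = c • w

/-! ### Traces on the span -/

theorem trace_mem_of_mem_adjoin (r : G →* Matrix (Fin 2) (Fin 2) K)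
    (htr : ∀ g, (r g).trace ∈ (algebraMap k K).range) {a : Matrix (Fin 2) (Fin 2) K}
    (ha : a ∈ Algebra.adjoin k (Set.range r)) : a.trace ∈ (algebraMap k K).range := by
  have h1 : Subalgebra.toSubmodule (Algebra.adjoin k (Set.range r)) =
      Submodule.span k (Set.range r) := by
    rw [Algebra.adjoin_eq_span, ← MonoidHom.coe_mrange, Submonoid.closure_eq]
  have ha' : a ∈ Submodule.span k (Set.range r) := by
    rw [← h1]; exact ha
  clear ha
  induction ha' using Submodule.span_induction with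
  | mem x hx => obtain ⟨g, rfl⟩ := hx; exact htr g
  | zero => simp
  | add x y _ _ hx hy => rw [trace_add]; exact add_mem hx hy
  | smul c x _ hx => rw [trace_smul, Algebra.smul_def]; exact mul_mem ⟨c, rfl⟩ hx

theorem map_mem_adjoin (r : G →* Matrix (Fin 2) (Fin 2) K) (g : G) :
    r g ∈ Algebra.adjoin k (Set.range r) :=
  Algebra.subset_adjoin ⟨g, rfl⟩

/-! ### The dichotomy from little Wedderburn -/

theorem exists_singular_or_commute [Finite K] (r : G →* Matrix (Fin 2) (Fin 2) K) :
    (∃ N ∈ Algebra.adjoin k (Set.range r), N ≠ 0 ∧ N.det = 0) ∨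
      ∀ g h, r g * r h = r h * r g := by
  by_cases h : ∃ N ∈ Algebra.adjoin k (Set.range r), N ≠ 0 ∧ N.det = 0
  · exact Or.inl h
  · right
    push Not at h
    have hnzd : NoZeroDivisors (Algebra.adjoin k (Set.range r)) := by
      refine ⟨fun {a b} hab => ?_⟩
      by_contra hcon
      push Not at hcon
      have ha : (a : Matrix (Fin 2) (Fin 2) K) ≠ 0 := fun h0 => hcon.1 (Subtype.ext h0)
      have hdet := h a a.2 ha
      have hab' : (a : Matrix (Fin 2) (Fin 2) K) * (b : Matrix (Fin 2) (Fin 2) K) = 0 := by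
        have := congrArg Subtype.val hab
        simpa using this
      have hb : (b : Matrix (Fin 2) (Fin 2) K) = 0 := by
        calc (b : Matrix (Fin 2) (Fin 2) K)
            = (a : Matrix (Fin 2) (Fin 2) K)⁻¹ * ((a : Matrix (Fin 2) (Fin 2) K) * b) := by
              rw [← Matrix.mul_assoc, Matrix.nonsing_inv_mul _ (isUnit_iff_ne_zero.mpr hdet),
                Matrix.one_mul]
          _ = 0 := by rw [hab', Matrix.mul_zero]
      exact hcon.2 (Subtype.ext hb)
    have hdom : IsDomain (Algebra.adjoin k (Set.range r)) := NoZeroDivisors.to_isDomain _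
    have hfield := Finite.isDomain_to_isField (Algebra.adjoin k (Set.range r))
    intro g h'
    have := hfield.mul_comm ⟨r g, map_mem_adjoin r g⟩ ⟨r h', map_mem_adjoin r h'⟩
    exact congrArg Subtype.val this

/-! ### The non-commutative case -/

/-- Entries of a product `Q a P` where the rows of `Q` are rows of matrices `X r` and the columns
of `P` are columns of matrices `Y s`. -/
theorem sandwich_apply (X Y : Fin 2 → Matrix (Fin 2) (Fin 2) K) (a : Matrix (Fin 2) (Fin 2) K)
    (i0 j0 r s : Fin 2) :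
    ((Matrix.of fun r x => X r i0 x) * a * (Matrix.of fun y s => Y s y j0)) r s =
      (X r * a * Y s) i0 j0 := by
  simp only [Matrix.mul_apply, Matrix.of_apply]

theorem exists_conj_of_singular (r : G →* Matrix (Fin 2) (Fin 2) K)
    (htr : ∀ g, (r g).trace ∈ (algebraMap k K).range)
    (hirr : ∀ v : Fin 2 → K, v ≠ 0 → ¬ ∀ g : G, ∃ c : K, r g *ᵥ v = c • v)
    {N : Matrix (Fin 2) (Fin 2) K} (hN : N ∈ Algebra.adjoin k (Set.range r)) (hN0 : N ≠ 0)
    (hdet : N.det = 0) :
    ∃ P : Matrix (Fin 2) (Fin 2) K, P.det ≠ 0 ∧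
      ∀ g, ∃ m : Matrix (Fin 2) (Fin 2) k, r g * P = P * m.map (algebraMap k K) := by
  classical
  -- a nonzero entry
  obtain ⟨i0, j0, hν⟩ : ∃ i0 j0, N i0 j0 ≠ 0 := by
    by_contra hcon
    push Not at hcon
    exact hN0 (by ext i j; simpa using hcon i j)
  -- the column `v0` and the row `φ0`
  set v0 : Fin 2 → K := fun y => N y j0 with hv0def
  set φ0 : Fin 2 → K := fun x => N i0 x with hφ0def
  have hv0 : v0 ≠ 0 := fun h => hν (by simpa [hv0def] using congrFun h i0)
  have hφ0 : φ0 ≠ 0 := fun h => hν (by simpa [hφ0def] using congrFun h j0)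
  -- `g1` moves `v0`
  obtain ⟨g1, hg1⟩ : ∃ g1, ∀ c : K, r g1 *ᵥ v0 ≠ c • v0 := by
    have := hirr v0 hv0
    push Not at this
    exact this
  -- `g2` moves `φ0`
  have hw0 : (![φ0 1, -φ0 0] : Fin 2 → K) ≠ 0 := by
    intro h
    apply hφ0
    have e0 := congrFun h 0
    have e1 := congrFun h 1
    simp at e0 e1
    funext i
    fin_cases i <;> simp [e0, e1]
  obtain ⟨g2, hg2⟩ : ∃ g2, ∀ c : K, φ0 ᵥ* r g2 ≠ c • φ0 := by
    have := hirr _ hw0
    push Not at this
    obtain ⟨g2, hg2⟩ := this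
    refine ⟨g2, fun c hc => ?_⟩
    have h0 : φ0 ⬝ᵥ (r g2 *ᵥ ![φ0 1, -φ0 0]) = 0 := by
      rw [Matrix.dotProduct_mulVec, hc]
      simp [dotProduct, Fin.sum_univ_two]
      ring
    obtain ⟨c', hc'⟩ := exists_smul_of_form_eq_zero (w := r g2 *ᵥ ![φ0 1, -φ0 0]) hφ0
      (by simpa [dotProduct, Fin.sum_univ_two] using h0)
    exact hg2 c' hc'
  -- the two bases
  set B : Fin 2 → Matrix (Fin 2) (Fin 2) K := ![1, r g2] with hBdef
  set D : Fin 2 → Matrix (Fin 2) (Fin 2) K := ![1, r g1] with hDdef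
  set Q : Matrix (Fin 2) (Fin 2) K := Matrix.of fun r' x => (N * B r') i0 x with hQdef
  set P : Matrix (Fin 2) (Fin 2) K := Matrix.of fun y s => (D s * N) y j0 with hPdef
  have hB : ∀ i, B i ∈ Algebra.adjoin k (Set.range r) := by
    intro i
    fin_cases i
    · exact one_mem _
    · exact map_mem_adjoin r g2
  have hD : ∀ i, D i ∈ Algebra.adjoin k (Set.range r) := by
    intro i
    fin_cases i
    · exact one_mem _
    · exact map_mem_adjoin r g1
  have hPdet : P.det ≠ 0 := by
    have h := det_ne_zero_of_indep hv0 hg1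
    rw [Matrix.det_fin_two]
    have e00 : P 0 0 = v0 0 := by simp [hPdef, hDdef, hv0def]
    have e10 : P 1 0 = v0 1 := by simp [hPdef, hDdef, hv0def]
    have e01 : P 0 1 = (r g1 *ᵥ v0) 0 := by
      simp [hPdef, hDdef, hv0def, Matrix.mul_apply, Matrix.mulVec, dotProduct]
    have e11 : P 1 1 = (r g1 *ᵥ v0) 1 := by
      simp [hPdef, hDdef, hv0def, Matrix.mul_apply, Matrix.mulVec, dotProduct]
    rw [e00, e10, e01, e11]
    intro h'
    apply h
    linear_combination h'
  have hQdet : Q.det ≠ 0 := by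
    have h := det_ne_zero_of_indep hφ0 hg2
    rw [Matrix.det_fin_two]
    have e00 : Q 0 0 = φ0 0 := by simp [hQdef, hBdef, hφ0def]
    have e01 : Q 0 1 = φ0 1 := by simp [hQdef, hBdef, hφ0def]
    have e10 : Q 1 0 = (φ0 ᵥ* r g2) 0 := by
      simp [hQdef, hBdef, hφ0def, Matrix.mul_apply, Matrix.vecMul, dotProduct]
    have e11 : Q 1 1 = (φ0 ᵥ* r g2) 1 := by
      simp [hQdef, hBdef, hφ0def, Matrix.mul_apply, Matrix.vecMul, dotProduct]
    rw [e00, e10, e01, e11]
    intro h'
    apply h
    linear_combination h'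
  -- the key computation
  have key : ∀ a ∈ Algebra.adjoin k (Set.range r), ∃ m : Matrix (Fin 2) (Fin 2) k,
      Q * a * P = N i0 j0 • m.map (algebraMap k K) := by
    intro a ha
    have hmem : ∀ r' s, ∃ x : k, algebraMap k K x = (N * (B r' * a * D s)).trace := by
      intro r' s
      exact trace_mem_of_mem_adjoin r htr
        (mul_mem hN (mul_mem (mul_mem (hB r') ha) (hD s)))
    choose m hm using hmem
    refine ⟨Matrix.of m, ?_⟩
    ext r' s
    rw [hQdef, hPdef, sandwich_apply (fun r' => N * B r') (fun s => D s * N) a i0 j0 r' s]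
    have : N * B r' * a * (D s * N) = N * (B r' * a * D s) * N := by
      simp only [Matrix.mul_assoc]
    rw [this, mul_mul_self_of_det_eq_zero _ _ hdet, Matrix.smul_apply, Matrix.smul_apply,
      Matrix.map_apply, Matrix.of_apply, hm, smul_eq_mul, smul_eq_mul, mul_comm]
  obtain ⟨m1, hm1⟩ := key 1 (one_mem _)
  have hm1det : m1.det ≠ 0 := by
    intro h0
    have : (Q * 1 * P).det = 0 := by
      rw [hm1, Matrix.det_smul, ← RingHom.mapMatrix_apply, ← RingHom.map_det, h0, map_zero,
        mul_zero]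
    rw [Matrix.mul_one, Matrix.det_mul] at this
    exact (mul_ne_zero hQdet hPdet) this
  refine ⟨P, hPdet, fun g => ?_⟩
  obtain ⟨mg, hmg⟩ := key (r g) (map_mem_adjoin r g)
  refine ⟨m1⁻¹ * mg, ?_⟩
  have hQunit : IsUnit Q := (Matrix.isUnit_iff_isUnit_det Q).mpr (isUnit_iff_ne_zero.mpr hQdet)
  apply hQunit.mul_left_cancel
  have e1 : Q * (r g * P) = N i0 j0 • mg.map (algebraMap k K) := by
    rw [← Matrix.mul_assoc, hmg]
  have e2 : Q * (P * (m1⁻¹ * mg).map (algebraMap k K)) = N i0 j0 • mg.map (algebraMap k K) := by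
    have hQP : Q * P = N i0 j0 • m1.map (algebraMap k K) := by
      rw [← hm1, Matrix.mul_one]
    rw [← Matrix.mul_assoc, hQP, Matrix.smul_mul, ← RingHom.mapMatrix_apply,
      ← RingHom.mapMatrix_apply, ← map_mul, ← Matrix.mul_assoc,
      Matrix.mul_nonsing_inv _ (isUnit_iff_ne_zero.mpr hm1det), Matrix.one_mul,
      RingHom.mapMatrix_apply]
  rw [e1, e2]

/-! ### The commutative case -/

theorem two_ne_zero_of_algebra (h2 : (2 : k) ≠ 0) : (2 : K) ≠ 0 := by
  have : algebraMap k K 2 ≠ 0 := by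
    rw [Ne, map_eq_zero]; exact h2
  rwa [map_ofNat] at this

/-- `(x • 1 + y • C).map f = f x • 1 + f y • C.map f`. -/
theorem map_add_smul (C : Matrix (Fin 2) (Fin 2) k) (x y : k) :
    (x • (1 : Matrix (Fin 2) (Fin 2) k) + y • C).map (algebraMap k K) =
      algebraMap k K x • (1 : Matrix (Fin 2) (Fin 2) K) +
        algebraMap k K y • C.map (algebraMap k K) := by
  ext i j
  simp only [Matrix.map_apply, Matrix.add_apply, Matrix.smul_apply, smul_eq_mul, map_add, map_mul]
  congr 2
  by_cases h : i = j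
  · subst h; simp
  · simp [h]

/-- In the commutative weakly semisimple case, a non-scalar element has non-zero discriminant. -/
theorem disc_ne_zero_of_commute (h2 : (2 : K) ≠ 0) (r : G →* Matrix (Fin 2) (Fin 2) K)
    (hss : WeakSSMat r) (hcomm : ∀ g h, r g * r h = r h * r g) {g0 : G}
    (hg0 : ∀ c : K, r g0 ≠ c • (1 : Matrix (Fin 2) (Fin 2) K)) :
    (r g0).trace ^ 2 - 4 * (r g0).det ≠ 0 := by
  intro hΔ
  set θ := r g0 with hθ
  set lam : K := θ.trace / 2 with hlam
  have h4 : (4 : K) ≠ 0 := by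
    have : (4 : K) = 2 * 2 := by norm_num
    rw [this]; exact mul_ne_zero h2 h2
  -- `lam` is an eigenvalue
  have hdet0 : (θ - lam • (1 : Matrix (Fin 2) (Fin 2) K)).det = 0 := by
    rw [Matrix.det_fin_two]
    simp only [Matrix.sub_apply, Matrix.smul_apply, Matrix.one_apply_eq, smul_eq_mul, mul_one,
      ne_eq, zero_ne_one, one_ne_zero, not_false_eq_true, Matrix.one_apply_ne, mul_zero, sub_zero]
    rw [Matrix.det_fin_two, Matrix.trace_fin_two] at hΔ
    rw [hlam, Matrix.trace_fin_two]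
    field_simp
    linear_combination (-1 : K) * hΔ
  obtain ⟨v0, hv0, hv0e⟩ := Matrix.exists_mulVec_eq_zero_iff.mpr hdet0
  have hθv0 : θ *ᵥ v0 = lam • v0 := by
    have : θ *ᵥ v0 - (lam • (1 : Matrix (Fin 2) (Fin 2) K)) *ᵥ v0 = 0 := by
      rw [← Matrix.sub_mulVec]; exact hv0e
    rw [Matrix.smul_mulVec, Matrix.one_mulVec] at this
    exact sub_eq_zero.mp this
  -- `v0` is a common eigenvector
  have hcommon : ∀ g : G, ∃ c : K, r g *ᵥ v0 = c • v0 := by
    intro g
    obtain ⟨x, y, hxy⟩ := exists_eq_add_smul_of_commute hg0 (hcomm g g0)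
    refine ⟨x + y * lam, ?_⟩
    rw [hxy, Matrix.add_mulVec, Matrix.smul_mulVec, Matrix.one_mulVec, Matrix.smul_mulVec,
      hθv0, smul_smul, add_smul]
  obtain ⟨w, hw, hwe⟩ := hss v0 hv0 hcommon
  obtain ⟨μ, hμ⟩ := hwe g0
  have hD := det_ne_zero_of_indep hv0 hw
  have htr := trace_eq_add_of_eigen hD hθv0 hμ
  have hμlam : μ = lam := by
    have : θ.trace = 2 * lam := by rw [hlam]; field_simp
    rw [this] at htr
    linear_combination -htr
  rw [hμlam] at hμ
  exact hg0 lam (eq_smul_one_of_eigen hD hθv0 hμ)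

theorem exists_conj_of_commute (h2 : (2 : k) ≠ 0) (r : G →* Matrix (Fin 2) (Fin 2) K)
    (hss : WeakSSMat r) (htr : ∀ g, (r g).trace ∈ (algebraMap k K).range)
    (hcomm : ∀ g h, r g * r h = r h * r g) :
    ∃ P : Matrix (Fin 2) (Fin 2) K, P.det ≠ 0 ∧
      ∀ g, ∃ m : Matrix (Fin 2) (Fin 2) k, r g * P = P * m.map (algebraMap k K) := by
  have h2K : (2 : K) ≠ 0 := two_ne_zero_of_algebra h2
  by_cases hsc : ∀ g, ∃ c : K, r g = c • (1 : Matrix (Fin 2) (Fin 2) K)
  · -- all scalar
    refine ⟨1, by simp, fun g => ?_⟩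
    obtain ⟨c, hc⟩ := hsc g
    obtain ⟨x, hx⟩ := htr g
    have hc2 : algebraMap k K (x / 2) = c := by
      rw [map_div₀, hx, hc, Matrix.trace_smul, Matrix.trace_one]
      simp only [Fintype.card_fin, Nat.cast_ofNat, smul_eq_mul, map_ofNat]
      field_simp
    refine ⟨(x / 2) • (1 : Matrix (Fin 2) (Fin 2) k) + (0 : k) • 0, ?_⟩
    rw [map_add_smul, hc2, map_zero, zero_smul, add_zero, Matrix.mul_one, Matrix.one_mul, hc]
  · push Not at hsc
    obtain ⟨g0, hg0⟩ := hsc
    obtain ⟨t', ht'⟩ := htr g0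
    -- the determinant is in `k`
    obtain ⟨s', hs'⟩ := htr (g0 * g0)
    set θ := r g0 with hθ
    have hdetθ : algebraMap k K ((t' ^ 2 - s') / 2) = θ.det := by
      have hCH := congrArg Matrix.trace (mul_self_eq θ)
      rw [Matrix.trace_sub, Matrix.trace_smul, Matrix.trace_smul, Matrix.trace_one] at hCH
      simp only [Fintype.card_fin, Nat.cast_ofNat, smul_eq_mul] at hCH
      rw [map_mul] at hs'
      rw [map_div₀, map_sub, map_pow, ht', hs', hCH]
      simp only [map_ofNat]
      field_simp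
      ring
    set d' : k := (t' ^ 2 - s') / 2 with hd'
    have hΔ := disc_ne_zero_of_commute h2K r hss hcomm hg0
    rw [← ht', ← hdetθ] at hΔ
    have hΔ' : t' ^ 2 - 4 * d' ≠ 0 := by
      intro h0
      apply hΔ
      have := congrArg (algebraMap k K) h0
      simpa only [map_sub, map_pow, map_mul, map_ofNat, map_zero] using this
    obtain ⟨v, hv⟩ := exists_cyclic hg0
    set P : Matrix (Fin 2) (Fin 2) K := !![v 0, (θ *ᵥ v) 0; v 1, (θ *ᵥ v) 1] with hP
    have hPdet : P.det ≠ 0 := by
      rw [hP, Matrix.det_fin_two_of]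
      intro h0
      apply hv
      linear_combination h0
    set C : Matrix (Fin 2) (Fin 2) k := !![0, -d'; 1, t'] with hC
    have hCmap : C.map (algebraMap k K) = !![0, -θ.det; 1, θ.trace] := by
      ext i j
      fin_cases i <;> fin_cases j <;> simp [hC, hdetθ, ht']
    have hθP : θ * P = P * C.map (algebraMap k K) := by
      rw [hCmap, hP]
      exact mul_cyclic_eq θ v
    refine ⟨P, hPdet, fun g => ?_⟩
    obtain ⟨x, y, hxy⟩ := exists_eq_add_smul_of_commute hg0 (hcomm g g0)
    obtain ⟨α', hα'⟩ := htr g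
    obtain ⟨β', hβ'⟩ := htr (g * g0)
    -- the two linear equations
    have eq1 : algebraMap k K α' = 2 * x + y * algebraMap k K t' := by
      rw [hα', hxy, Matrix.trace_add, Matrix.trace_smul, Matrix.trace_smul, Matrix.trace_one, ht']
      simp only [Fintype.card_fin, Nat.cast_ofNat, smul_eq_mul]
      ring
    have eq2 : algebraMap k K β' = x * algebraMap k K t' +
        y * (algebraMap k K t' ^ 2 - 2 * algebraMap k K d') := by
      rw [hβ', map_mul, hxy, Matrix.add_mul, Matrix.smul_mul, Matrix.smul_mul,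
        Matrix.one_mul, mul_self_eq θ, Matrix.trace_add, Matrix.trace_smul, Matrix.trace_smul,
        Matrix.trace_sub, Matrix.trace_smul, Matrix.trace_smul, Matrix.trace_one, ht', hdetθ]
      simp only [Fintype.card_fin, Nat.cast_ofNat, smul_eq_mul]
      ring
    have hΔK : algebraMap k K (t' ^ 2 - 4 * d') ≠ 0 := by
      rw [Ne, map_eq_zero]; exact hΔ'
    have hx : algebraMap k K ((α' * (t' ^ 2 - 2 * d') - t' * β') / (t' ^ 2 - 4 * d')) = x := by
      rw [map_div₀, div_eq_iff hΔK]
      simp only [map_sub, map_mul, map_pow, map_ofNat, eq1, eq2]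
      ring
    have hy : algebraMap k K ((2 * β' - t' * α') / (t' ^ 2 - 4 * d')) = y := by
      rw [map_div₀, div_eq_iff hΔK]
      simp only [map_sub, map_mul, map_pow, map_ofNat, eq1, eq2]
      ring
    refine ⟨((α' * (t' ^ 2 - 2 * d') - t' * β') / (t' ^ 2 - 4 * d')) •
      (1 : Matrix (Fin 2) (Fin 2) k) + ((2 * β' - t' * α') / (t' ^ 2 - 4 * d')) • C, ?_⟩
    rw [map_add_smul, hx, hy, hxy, Matrix.add_mul, Matrix.smul_mul, Matrix.smul_mul,
      Matrix.one_mul, hθP, Matrix.mul_add, Matrix.mul_smul, Matrix.mul_smul, Matrix.mul_one]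

/-! ### Combining the two cases -/

/-- Two independent common eigenvectors: the matrices commute. -/
theorem commute_of_common_eigen {a b : Matrix (Fin 2) (Fin 2) K} {v w : Fin 2 → K}
    (hD : v 0 * w 1 - v 1 * w 0 ≠ 0) {α α' β β' : K} (hav : a *ᵥ v = α • v) (haw : a *ᵥ w = α' • w)
    (hbv : b *ᵥ v = β • v) (hbw : b *ᵥ w = β' • w) : a * b = b * a := by
  have hv : (a * b - b * a) *ᵥ v = (0 : K) • v := by
    rw [Matrix.sub_mulVec, ← Matrix.mulVec_mulVec, ← Matrix.mulVec_mulVec, hbv, hav,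
      Matrix.mulVec_smul, Matrix.mulVec_smul, hav, hbv, smul_smul, smul_smul, mul_comm, sub_self,
      zero_smul]
  have hw : (a * b - b * a) *ᵥ w = (0 : K) • w := by
    rw [Matrix.sub_mulVec, ← Matrix.mulVec_mulVec, ← Matrix.mulVec_mulVec, hbw, haw,
      Matrix.mulVec_smul, Matrix.mulVec_smul, haw, hbw, smul_smul, smul_smul, mul_comm, sub_self,
      zero_smul]
  have := eq_smul_one_of_eigen hD hv hw
  rw [zero_smul] at this
  exact sub_eq_zero.mp this

/-- **Realisability, matrix form.**  A weakly semisimple `r : G → M₂(K)`, `K` finite of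
characteristic `≠ 2`, with all traces in the subfield `k`, is conjugate to a family of matrices
with entries in `k`. -/
theorem exists_conj [Finite K] (h2 : (2 : k) ≠ 0) (r : G →* Matrix (Fin 2) (Fin 2) K)
    (hss : WeakSSMat r) (htr : ∀ g, (r g).trace ∈ (algebraMap k K).range) :
    ∃ P : Matrix (Fin 2) (Fin 2) K, P.det ≠ 0 ∧
      ∀ g, ∃ m : Matrix (Fin 2) (Fin 2) k, r g * P = P * m.map (algebraMap k K) := by
  by_cases hcomm : ∀ g h, r g * r h = r h * r g
  · exact exists_conj_of_commute h2 r hss htr hcomm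
  · have hirr : ∀ v : Fin 2 → K, v ≠ 0 → ¬ ∀ g : G, ∃ c : K, r g *ᵥ v = c • v := by
      intro v hv hcommon
      obtain ⟨w, hw, hwe⟩ := hss v hv hcommon
      apply hcomm
      intro g h
      obtain ⟨α, hα⟩ := hcommon g
      obtain ⟨β, hβ⟩ := hcommon h
      obtain ⟨α', hα'⟩ := hwe g
      obtain ⟨β', hβ'⟩ := hwe h
      exact commute_of_common_eigen (det_ne_zero_of_indep hv hw) hα hα' hβ hβ'
    rcases exists_singular_or_commute (k := k) r with ⟨N, hN, hN0, hdet⟩ | h
    · exact exists_conj_of_singular r htr hirr hN hN0 hdet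
    · exact absurd h hcomm

/-! ### The representation over `k` -/

theorem exists_hom_of_conj (r : G →* Matrix (Fin 2) (Fin 2) K) {P : Matrix (Fin 2) (Fin 2) K}
    (hP : P.det ≠ 0)
    (h : ∀ g, ∃ m : Matrix (Fin 2) (Fin 2) k, r g * P = P * m.map (algebraMap k K)) :
    ∃ r₀ : G →* Matrix (Fin 2) (Fin 2) k, ∀ g, r g * P = P * (r₀ g).map (algebraMap k K) := by
  choose m hm using h
  have hPunit : IsUnit P := (Matrix.isUnit_iff_isUnit_det P).mpr (isUnit_iff_ne_zero.mpr hP)
  have hinj : Function.Injective fun M : Matrix (Fin 2) (Fin 2) k => M.map (algebraMap k K) :=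
    Matrix.map_injective (algebraMap k K).injective
  refine ⟨{ toFun := m, map_one' := ?_, map_mul' := ?_ }, fun g => hm g⟩
  · apply hinj
    apply hPunit.mul_left_cancel
    change P * (m 1).map (algebraMap k K) = P * (1 : Matrix (Fin 2) (Fin 2) k).map (algebraMap k K)
    rw [← hm 1, map_one, Matrix.one_mul, ← RingHom.mapMatrix_apply, map_one, Matrix.mul_one]
  · intro g h
    apply hinj
    apply hPunit.mul_left_cancel
    change P * (m (g * h)).map (algebraMap k K) = P * (m g * m h).map (algebraMap k K)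
    rw [← hm (g * h), map_mul, Matrix.mul_assoc, hm h, ← Matrix.mul_assoc, hm g, Matrix.mul_assoc,
      ← RingHom.mapMatrix_apply, ← RingHom.mapMatrix_apply, ← RingHom.mapMatrix_apply, map_mul]

/-! ### Descent of weak semisimplicity -/

theorem map_mulVec_comp (m : Matrix (Fin 2) (Fin 2) k) (v : Fin 2 → k) :
    m.map (algebraMap k K) *ᵥ (algebraMap k K ∘ v) = algebraMap k K ∘ (m *ᵥ v) := by
  funext i
  exact (RingHom.map_mulVec (algebraMap k K) m v i).symm

theorem weakSS_descend (r : G →* Matrix (Fin 2) (Fin 2) K) (r₀ : G →* Matrix (Fin 2) (Fin 2) k)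
    {P : Matrix (Fin 2) (Fin 2) K} (hP : P.det ≠ 0)
    (h : ∀ g, r g * P = P * (r₀ g).map (algebraMap k K)) (hss : WeakSSMat r) : WeakSSMat r₀ := by
  classical
  set f := algebraMap k K with hf
  have hfinj : Function.Injective f := (algebraMap k K).injective
  have hPinj : ∀ a b : Fin 2 → K, P *ᵥ a = P *ᵥ b → a = b := by
    intro a b hab
    have : P *ᵥ (a - b) = 0 := by rw [Matrix.mulVec_sub, hab, sub_self]
    exact sub_eq_zero.mp (Matrix.eq_zero_of_mulVec_eq_zero hP this)
  intro v hv hcommon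
  choose χ hχ using hcommon
  -- the vector over `K`
  set vK : Fin 2 → K := f ∘ v with hvK
  have hvK0 : vK ≠ 0 := by
    intro h0
    apply hv
    funext i
    have := congrFun h0 i
    simp only [hvK, Function.comp_apply, Pi.zero_apply] at this
    exact hfinj (by rw [this, Pi.zero_apply, map_zero])
  have hvKe : ∀ g, (r₀ g).map f *ᵥ vK = f (χ g) • vK := by
    intro g
    rw [hvK, map_mulVec_comp, hχ g]
    funext i
    simp [hf, Algebra.smul_def]
  set u : Fin 2 → K := P *ᵥ vK with hu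
  have hu0 : u ≠ 0 := by
    intro h0
    exact hvK0 (Matrix.eq_zero_of_mulVec_eq_zero hP h0)
  have hue : ∀ g, ∃ c : K, r g *ᵥ u = c • u := by
    intro g
    refine ⟨f (χ g), ?_⟩
    rw [hu, Matrix.mulVec_mulVec, h g, ← Matrix.mulVec_mulVec, hvKe g, Matrix.mulVec_smul]
  obtain ⟨wK, hwK, hwKe⟩ := hss u hu0 hue
  -- pull back to the conjugated representation
  set w1 : Fin 2 → K := P⁻¹ *ᵥ wK with hw1
  have hPw1 : P *ᵥ w1 = wK := by
    rw [hw1, Matrix.mulVec_mulVec, Matrix.mul_nonsing_inv _ (isUnit_iff_ne_zero.mpr hP),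
      Matrix.one_mulVec]
  have hw1e : ∀ g, ∃ c : K, (r₀ g).map f *ᵥ w1 = c • w1 := by
    intro g
    obtain ⟨c, hc⟩ := hwKe g
    refine ⟨c, hPinj _ _ ?_⟩
    rw [Matrix.mulVec_mulVec, ← h g, ← Matrix.mulVec_mulVec, hPw1, hc, Matrix.mulVec_smul, hPw1]
  have hw1ind : ∀ c : K, w1 ≠ c • vK := by
    intro c hc
    apply hwK c
    rw [← hPw1, hc, Matrix.mulVec_smul]
  choose ψ hψ using hw1e
  have hD := det_ne_zero_of_indep hvK0 hw1ind
  -- the second eigenvalue is in `k`
  have hψk : ∀ g, ψ g = f ((r₀ g).trace - χ g) := by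
    intro g
    have := trace_eq_add_of_eigen hD (hvKe g) (hψ g)
    rw [← AddMonoidHom.map_trace] at this
    rw [map_sub, this]
    ring
  set ψ' : G → k := fun g => (r₀ g).trace - χ g with hψ'
  by_cases hall : ∀ g, r₀ g = ψ' g • (1 : Matrix (Fin 2) (Fin 2) k)
  · -- all scalar: any independent vector works
    by_cases hv0 : v 0 = 0
    · have hv1 : v 1 ≠ 0 := by
        intro hv1
        apply hv
        funext i
        fin_cases i <;> simp [hv0, hv1]
      refine ⟨![1, 0], ?_, fun g => ⟨ψ' g, ?_⟩⟩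
      · have := (indep_of_det_ne_zero (v := v) (w := ![1, 0]) (by simpa using hv1)).2
        exact this
      · rw [hall g, Matrix.smul_mulVec, Matrix.one_mulVec]
    · refine ⟨![0, 1], ?_, fun g => ⟨ψ' g, ?_⟩⟩
      · have := (indep_of_det_ne_zero (v := v) (w := ![0, 1]) (by simpa using hv0)).2
        exact this
      · rw [hall g, Matrix.smul_mulVec, Matrix.one_mulVec]
  · push Not at hall
    obtain ⟨g1, hg1⟩ := hall
    set n : Matrix (Fin 2) (Fin 2) k := r₀ g1 - ψ' g1 • (1 : Matrix (Fin 2) (Fin 2) k) with hn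
    have hn0 : n ≠ 0 := fun h0 => hg1 (sub_eq_zero.mp h0)
    obtain ⟨i, hi⟩ : ∃ i, n i ≠ 0 := by
      by_contra hcon
      push Not at hcon
      exact hn0 (by ext i j; simpa using congrFun (hcon i) j)
    set φ : Fin 2 → k := n i with hφ
    -- `w1` is killed by `n` over `K`
    have hnw1 : n.map f *ᵥ w1 = 0 := by
      have : n.map f = (r₀ g1).map f - f (ψ' g1) • (1 : Matrix (Fin 2) (Fin 2) K) := by
        ext a b
        simp only [hn, Matrix.map_apply, Matrix.sub_apply, Matrix.smul_apply, smul_eq_mul, map_sub,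
          map_mul]
        congr 2
        by_cases hab : a = b
        · subst hab; simp
        · simp [hab]
      rw [this, Matrix.sub_mulVec, hψ g1, Matrix.smul_mulVec, Matrix.one_mulVec, hψk g1, sub_self]
    have hform : f (φ 0) * w1 0 + f (φ 1) * w1 1 = 0 := by
      have := congrFun hnw1 i
      simpa [Matrix.mulVec, dotProduct, Fin.sum_univ_two, hφ] using this
    have hφK : (f ∘ φ) ≠ 0 := by
      intro h0
      apply hi
      funext j
      have := congrFun h0 j
      simp only [Function.comp_apply, Pi.zero_apply] at this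
      exact hfinj (by rw [this, Pi.zero_apply, map_zero])
    obtain ⟨c, hc⟩ := exists_smul_of_form_eq_zero (φ := f ∘ φ) (w := w1) hφK (by simpa using hform)
    set w' : Fin 2 → k := ![φ 1, -φ 0] with hw'
    have hw'K : (![(f ∘ φ) 1, -(f ∘ φ) 0] : Fin 2 → K) = f ∘ w' := by
      funext j
      fin_cases j <;> simp [hw']
    rw [hw'K] at hc
    have hc0 : c ≠ 0 := by
      rintro rfl
      rw [zero_smul] at hc
      exact hw1ind 0 (by rw [hc, zero_smul])
    refine ⟨w', ?_, fun g => ⟨ψ' g, ?_⟩⟩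
    · intro a ha
      apply hw1ind (c * f a)
      rw [hc, ha, hvK]
      funext j
      simp [mul_assoc, Algebra.smul_def, hf]
    · -- eigenvector over `K`, hence over `k`
      have hK : (r₀ g).map f *ᵥ (f ∘ w') = f (ψ' g) • (f ∘ w') := by
        have hw'eq : f ∘ w' = c⁻¹ • w1 := by
          rw [hc, smul_smul, inv_mul_cancel₀ hc0, one_smul]
        rw [hw'eq, Matrix.mulVec_smul, hψ g, hψk g, smul_comm]
      rw [map_mulVec_comp] at hK
      funext j
      have := congrFun hK j
      simp only [Function.comp_apply, Pi.smul_apply, smul_eq_mul] at this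
      apply hfinj
      rw [this, Pi.smul_apply, smul_eq_mul, map_mul]

/-! ### `GL₂`-valued statements -/

/-- Weak semisimplicity of a two-dimensional representation (helper68's `hss`, verbatim the body
of `Fermat.Agent.S48x.DS2.WeaklySemisimple`): every common eigenvector has an independent common
eigenvector. -/
def WeakSS (ρ : G →* GL (Fin 2) K) : Prop :=
  ∀ v : Fin 2 → K, v ≠ 0 →
    (∀ g : G, ∃ c : K, ((ρ g : GL (Fin 2) K) : Matrix (Fin 2) (Fin 2) K).mulVec v = c • v) →
    ∃ w : Fin 2 → K, (∀ c : K, w ≠ c • v) ∧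
      ∀ g : G, ∃ c : K, ((ρ g : GL (Fin 2) K) : Matrix (Fin 2) (Fin 2) K).mulVec w = c • w

/-- The matrix-valued homomorphism attached to a `GL₂`-valued one. -/
def toMat (ρ : G →* GL (Fin 2) K) : G →* Matrix (Fin 2) (Fin 2) K :=
  (Units.coeHom (Matrix (Fin 2) (Fin 2) K)).comp ρ

@[simp] theorem toMat_apply (ρ : G →* GL (Fin 2) K) (g : G) :
    toMat ρ g = ((ρ g : GL (Fin 2) K) : Matrix (Fin 2) (Fin 2) K) := rfl

theorem weakSS_iff (ρ : G →* GL (Fin 2) K) : WeakSS ρ ↔ WeakSSMat (toMat ρ) := Iff.rfl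

/-- **Realisability over a subfield, conjugation form.**  `K` a finite field, `k` a subfield
with `2 ≠ 0`, `ρ : G → GL₂(K)` weakly semisimple with all traces in `k`.  Then a `K`-conjugate of
`ρ` takes values in `GL₂(k)`, and it is weakly semisimple over `k`. -/
theorem exists_conj_hom [Finite K] (h2 : (2 : k) ≠ 0) (ρ : G →* GL (Fin 2) K) (hss : WeakSS ρ)
    (htr : ∀ g, ((ρ g : GL (Fin 2) K) : Matrix (Fin 2) (Fin 2) K).trace ∈
      (algebraMap k K).range) :
    ∃ (P : GL (Fin 2) K) (ρ₀ : G →* GL (Fin 2) k), WeakSS ρ₀ ∧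
      ∀ g, P⁻¹ * ρ g * P = Matrix.GeneralLinearGroup.map (algebraMap k K) (ρ₀ g) := by
  obtain ⟨P, hP, hm⟩ := exists_conj h2 (toMat ρ) hss htr
  obtain ⟨r₀, hr₀⟩ := exists_hom_of_conj (toMat ρ) hP hm
  refine ⟨Matrix.GeneralLinearGroup.mkOfDetNeZero P hP, r₀.toHomUnits, ?_, fun g => ?_⟩
  · have : toMat r₀.toHomUnits = r₀ := by
      ext g : 1
      simp [toMat_apply, MonoidHom.coe_toHomUnits]
    rw [weakSS_iff, this]
    exact weakSS_descend (toMat ρ) r₀ hP hr₀ hss
  · apply Units.ext
    ext i j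
    rw [Matrix.GeneralLinearGroup.map_apply]
    have h1 : ((Matrix.GeneralLinearGroup.mkOfDetNeZero P hP)⁻¹ * ρ g *
        Matrix.GeneralLinearGroup.mkOfDetNeZero P hP : GL (Fin 2) K).val =
        P⁻¹ * (toMat ρ g * P) := by
      rw [Units.val_mul, Units.val_mul, Matrix.coe_units_inv, Matrix.mul_assoc]
      rfl
    rw [h1, hr₀ g, ← Matrix.mul_assoc, Matrix.nonsing_inv_mul _ (isUnit_iff_ne_zero.mpr hP),
      Matrix.one_mul, Matrix.map_apply]
    rfl

/-- **Realisability over a subfield.**  `K` a finite field, `k` a subfield with `2 ≠ 0`,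
`ρ : G → GL₂(K)` weakly semisimple with all traces in `k`.  Then there is a weakly semisimple
`ρ₀ : G → GL₂(k)` with the same kernel, the same traces and the same determinants. -/
theorem exists_realisation [Finite K] (h2 : (2 : k) ≠ 0) (ρ : G →* GL (Fin 2) K) (hss : WeakSS ρ)
    (htr : ∀ g, ((ρ g : GL (Fin 2) K) : Matrix (Fin 2) (Fin 2) K).trace ∈
      (algebraMap k K).range) :
    ∃ ρ₀ : G →* GL (Fin 2) k, WeakSS ρ₀ ∧ (∀ g, ρ₀ g = 1 ↔ ρ g = 1) ∧
      (∀ g, algebraMap k K ((ρ₀ g : GL (Fin 2) k) : Matrix (Fin 2) (Fin 2) k).trace =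
        ((ρ g : GL (Fin 2) K) : Matrix (Fin 2) (Fin 2) K).trace) ∧
      (∀ g, algebraMap k K ((ρ₀ g : GL (Fin 2) k) : Matrix (Fin 2) (Fin 2) k).det =
        ((ρ g : GL (Fin 2) K) : Matrix (Fin 2) (Fin 2) K).det) := by
  obtain ⟨P, ρ₀, hss₀, hconj⟩ := exists_conj_hom h2 ρ hss htr
  have hval : ∀ g, ((P⁻¹ : GL (Fin 2) K) : Matrix (Fin 2) (Fin 2) K) *
      ((ρ g : GL (Fin 2) K) : Matrix (Fin 2) (Fin 2) K) * (P : Matrix (Fin 2) (Fin 2) K) =
      ((ρ₀ g : GL (Fin 2) k) : Matrix (Fin 2) (Fin 2) k).map (algebraMap k K) := by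
    intro g
    have := congrArg (fun x : GL (Fin 2) K => (x : Matrix (Fin 2) (Fin 2) K)) (hconj g)
    simp only [Units.val_mul] at this
    rw [this]
    ext i j
    rw [Matrix.GeneralLinearGroup.map_apply, Matrix.map_apply]
  refine ⟨ρ₀, hss₀, fun g => ?_, fun g => ?_, fun g => ?_⟩
  · constructor
    · intro h
      have h1 := hconj g
      rw [h, map_one] at h1
      have h2' : ρ g * P = P := by
        have := congrArg (fun x => P * x) h1
        simpa [mul_assoc] using this
      exact mul_eq_right.mp h2'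
    · intro h
      have h1 := hconj g
      rw [h, mul_one, inv_mul_cancel] at h1
      apply Units.ext
      ext i j
      have := congrArg (fun x : GL (Fin 2) K => (x : Matrix (Fin 2) (Fin 2) K) i j) h1
      simp only [Matrix.GeneralLinearGroup.map_apply] at this
      apply (algebraMap k K).injective
      rw [← this]
      by_cases hij : i = j
      · subst hij; simp
      · simp [hij]
  · rw [AddMonoidHom.map_trace, ← hval g, Matrix.trace_units_conj']
  · rw [RingHom.map_det, RingHom.mapMatrix_apply, ← hval g, Matrix.det_units_conj']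

/-- Ring homomorphism form of `exists_realisation` (no `Algebra` instance needed), with the
hypotheses in existential form.  The determinant hypothesis of the usual formulation is not
needed. -/
theorem exists_realisation_ringHom {k K G : Type*} [Field k] [Field K] [Finite K] [Group G]
    (f : k →+* K) (h2 : (2 : k) ≠ 0) (ρ : G →* GL (Fin 2) K) (hss : WeakSS ρ)
    (htr : ∀ g, ∃ a : k, f a = ((ρ g : GL (Fin 2) K) : Matrix (Fin 2) (Fin 2) K).trace) :
    ∃ ρ₀ : G →* GL (Fin 2) k, WeakSS ρ₀ ∧ (∀ g, ρ₀ g = 1 ↔ ρ g = 1) ∧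
      (∀ g, f ((ρ₀ g : GL (Fin 2) k) : Matrix (Fin 2) (Fin 2) k).trace =
        ((ρ g : GL (Fin 2) K) : Matrix (Fin 2) (Fin 2) K).trace) ∧
      (∀ g, f ((ρ₀ g : GL (Fin 2) k) : Matrix (Fin 2) (Fin 2) k).det =
        ((ρ g : GL (Fin 2) K) : Matrix (Fin 2) (Fin 2) K).det) := by
  let _ : Algebra k K := f.toAlgebra
  exact exists_realisation (k := k) h2 ρ hss htr

/-- Same kernel. -/
theorem ker_eq_of_eq_one_iff {k K G : Type*} [Field k] [Field K] [Group G]
    {ρ : G →* GL (Fin 2) K} {ρ₀ : G →* GL (Fin 2) k} (h : ∀ g, ρ₀ g = 1 ↔ ρ g = 1) :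
    ρ₀.ker = ρ.ker := by
  ext g
  rw [MonoidHom.mem_ker, MonoidHom.mem_ker]
  exact h g

end Fermat.Agent.S48x.Realise
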