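/-
P-S48 (Deligne-Serre), block (R) = realisability over a subfield, FINITE RANGE version
(helper86).  Same statements as `Realise/Main.lean`, with the hypothesis `[Finite K]` replaced by
`[Finite k]` and finiteness of the image of `ρ` (so that `K` may be an algebraic closure).

Mathlib only (plus `Realise/Main.lean`).
-/
import Mathlib
import Fermat.Agent.S48x.Realise.Main

set_option autoImplicit false

open Matrix

namespace Fermat.Agent.S48x.Realise

variable {k K G : Type*} [Field k] [Field K] [Algebra k K] [Group G]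

/-- The `k`-span of a finite matrix group over a finite field `k` is finite. -/
theorem finite_adjoin_of_finite_range [Finite k] (r : G →* Matrix (Fin 2) (Fin 2) K)
    (hfin : (Set.range r).Finite) : Finite (Algebra.adjoin k (Set.range r)) := by
  have h1 : Subalgebra.toSubmodule (Algebra.adjoin k (Set.range r)) =
      Submodule.span k (Set.range r) := by
    rw [Algebra.adjoin_eq_span, ← MonoidHom.coe_mrange, Submonoid.closure_eq]
  have hmf : Module.Finite k (Submodule.span k (Set.range r)) :=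
    Module.Finite.span_of_finite k hfin
  have hfin' : Finite (Submodule.span k (Set.range r)) := Module.finite_of_finite k
  have hset : ((Algebra.adjoin k (Set.range r) : Subalgebra k (Matrix (Fin 2) (Fin 2) K)) :
      Set (Matrix (Fin 2) (Fin 2) K)) = (Submodule.span k (Set.range r) : Set _) := by
    rw [← h1]; rfl
  have : ((Algebra.adjoin k (Set.range r) : Subalgebra k (Matrix (Fin 2) (Fin 2) K)) :
      Set (Matrix (Fin 2) (Fin 2) K)).Finite := by
    rw [hset]; exact Set.toFinite _
  exact this.to_subtype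

/-- The little Wedderburn dichotomy for a finite span. -/
theorem exists_singular_or_commute_of_finite (r : G →* Matrix (Fin 2) (Fin 2) K)
    (hA : Finite (Algebra.adjoin k (Set.range r))) :
    (∃ N ∈ Algebra.adjoin k (Set.range r), N ≠ 0 ∧ N.det = 0) ∨
      ∀ g h, r g * r h = r h * r g := by
  by_cases h : ∃ N ∈ Algebra.adjoin k (Set.range r), N ≠ 0 ∧ N.det = 0
  · exact Or.inl h
  · right
    push Not at h
    have hnzd : NoZeroDivisors (Algebra.adjoin k (Set.range r)) := by
      refine ⟨fun {a b} hab => ?_⟩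
      by_contra hcon
      push Not at hcon
      have ha : (a : Matrix (Fin 2) (Fin 2) K) ≠ 0 := fun h0 => hcon.1 (Subtype.ext h0)
      have hdet := h a a.2 ha
      have hab' : (a : Matrix (Fin 2) (Fin 2) K) * (b : Matrix (Fin 2) (Fin 2) K) = 0 := by
        have := congrArg Subtype.val hab
        simpa using this
      have hb : (b : Matrix (Fin 2) (Fin 2) K) = 0 := by
        calc (b : Matrix (Fin 2) (Fin 2) K)
            = (a : Matrix (Fin 2) (Fin 2) K)⁻¹ * ((a : Matrix (Fin 2) (Fin 2) K) * b) := by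
              rw [← Matrix.mul_assoc, Matrix.nonsing_inv_mul _ (isUnit_iff_ne_zero.mpr hdet),
                Matrix.one_mul]
          _ = 0 := by rw [hab', Matrix.mul_zero]
      exact hcon.2 (Subtype.ext hb)
    have hdom : IsDomain (Algebra.adjoin k (Set.range r)) := NoZeroDivisors.to_isDomain _
    have hfield := Finite.isDomain_to_isField (Algebra.adjoin k (Set.range r))
    intro g h'
    have := hfield.mul_comm ⟨r g, map_mem_adjoin r g⟩ ⟨r h', map_mem_adjoin r h'⟩
    exact congrArg Subtype.val this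

/-- **Realisability, matrix form, finite span.** -/
theorem exists_conj_of_finite (h2 : (2 : k) ≠ 0) (r : G →* Matrix (Fin 2) (Fin 2) K)
    (hA : Finite (Algebra.adjoin k (Set.range r)))
    (hss : WeakSSMat r) (htr : ∀ g, (r g).trace ∈ (algebraMap k K).range) :
    ∃ P : Matrix (Fin 2) (Fin 2) K, P.det ≠ 0 ∧
      ∀ g, ∃ m : Matrix (Fin 2) (Fin 2) k, r g * P = P * m.map (algebraMap k K) := by
  by_cases hcomm : ∀ g h, r g * r h = r h * r g
  · exact exists_conj_of_commute h2 r hss htr hcomm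
  · have hirr : ∀ v : Fin 2 → K, v ≠ 0 → ¬ ∀ g : G, ∃ c : K, r g *ᵥ v = c • v := by
      intro v hv hcommon
      obtain ⟨w, hw, hwe⟩ := hss v hv hcommon
      apply hcomm
      intro g h
      obtain ⟨α, hα⟩ := hcommon g
      obtain ⟨β, hβ⟩ := hcommon h
      obtain ⟨α', hα'⟩ := hwe g
      obtain ⟨β', hβ'⟩ := hwe h
      exact commute_of_common_eigen (det_ne_zero_of_indep hv hw) hα hα' hβ hβ'
    rcases exists_singular_or_commute_of_finite (k := k) r hA with ⟨N, hN, hN0, hdet⟩ | h
    · exact exists_conj_of_singular r htr hirr hN hN0 hdet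
    · exact absurd h hcomm

/-- From a conjugating matrix to the `GL₂(k)`-valued representation. -/
theorem conj_hom_of_conj (ρ : G →* GL (Fin 2) K) (hss : WeakSS ρ)
    {P : Matrix (Fin 2) (Fin 2) K} (hP : P.det ≠ 0)
    (hm : ∀ g, ∃ m : Matrix (Fin 2) (Fin 2) k, toMat ρ g * P = P * m.map (algebraMap k K)) :
    ∃ (P : GL (Fin 2) K) (ρ₀ : G →* GL (Fin 2) k), WeakSS ρ₀ ∧
      ∀ g, P⁻¹ * ρ g * P = Matrix.GeneralLinearGroup.map (algebraMap k K) (ρ₀ g) := by
  obtain ⟨r₀, hr₀⟩ := exists_hom_of_conj (toMat ρ) hP hm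
  refine ⟨Matrix.GeneralLinearGroup.mkOfDetNeZero P hP, r₀.toHomUnits, ?_, fun g => ?_⟩
  · have : toMat r₀.toHomUnits = r₀ := by
      ext g : 1
      simp [toMat_apply, MonoidHom.coe_toHomUnits]
    rw [weakSS_iff, this]
    exact weakSS_descend (toMat ρ) r₀ hP hr₀ hss
  · apply Units.ext
    ext i j
    rw [Matrix.GeneralLinearGroup.map_apply]
    have h1 : ((Matrix.GeneralLinearGroup.mkOfDetNeZero P hP)⁻¹ * ρ g *
        Matrix.GeneralLinearGroup.mkOfDetNeZero P hP : GL (Fin 2) K).val =
        P⁻¹ * (toMat ρ g * P) := by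
      rw [Units.val_mul, Units.val_mul, Matrix.coe_units_inv, Matrix.mul_assoc]
      rfl
    rw [h1, hr₀ g, ← Matrix.mul_assoc, Matrix.nonsing_inv_mul _ (isUnit_iff_ne_zero.mpr hP),
      Matrix.one_mul, Matrix.map_apply]
    rfl

/-- From the conjugation form to kernel, traces and determinants. -/
theorem realisation_of_conj_hom (ρ : G →* GL (Fin 2) K)
    (h : ∃ (P : GL (Fin 2) K) (ρ₀ : G →* GL (Fin 2) k), WeakSS ρ₀ ∧
      ∀ g, P⁻¹ * ρ g * P = Matrix.GeneralLinearGroup.map (algebraMap k K) (ρ₀ g)) :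
    ∃ ρ₀ : G →* GL (Fin 2) k, WeakSS ρ₀ ∧ (∀ g, ρ₀ g = 1 ↔ ρ g = 1) ∧
      (∀ g, algebraMap k K ((ρ₀ g : GL (Fin 2) k) : Matrix (Fin 2) (Fin 2) k).trace =
        ((ρ g : GL (Fin 2) K) : Matrix (Fin 2) (Fin 2) K).trace) ∧
      (∀ g, algebraMap k K ((ρ₀ g : GL (Fin 2) k) : Matrix (Fin 2) (Fin 2) k).det =
        ((ρ g : GL (Fin 2) K) : Matrix (Fin 2) (Fin 2) K).det) := by
  obtain ⟨P, ρ₀, hss₀, hconj⟩ := h
  have hval : ∀ g, ((P⁻¹ : GL (Fin 2) K) : Matrix (Fin 2) (Fin 2) K) *
      ((ρ g : GL (Fin 2) K) : Matrix (Fin 2) (Fin 2) K) * (P : Matrix (Fin 2) (Fin 2) K) =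
      ((ρ₀ g : GL (Fin 2) k) : Matrix (Fin 2) (Fin 2) k).map (algebraMap k K) := by
    intro g
    have := congrArg (fun x : GL (Fin 2) K => (x : Matrix (Fin 2) (Fin 2) K)) (hconj g)
    simp only [Units.val_mul] at this
    rw [this]
    ext i j
    rw [Matrix.GeneralLinearGroup.map_apply, Matrix.map_apply]
  refine ⟨ρ₀, hss₀, fun g => ?_, fun g => ?_, fun g => ?_⟩
  · constructor
    · intro h
      have h1 := hconj g
      rw [h, map_one] at h1
      have h2' : ρ g * P = P := by
        have := congrArg (fun x => P * x) h1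
        simpa [mul_assoc] using this
      exact mul_eq_right.mp h2'
    · intro h
      have h1 := hconj g
      rw [h, mul_one, inv_mul_cancel] at h1
      apply Units.ext
      ext i j
      have := congrArg (fun x : GL (Fin 2) K => (x : Matrix (Fin 2) (Fin 2) K) i j) h1
      simp only [Matrix.GeneralLinearGroup.map_apply] at this
      apply (algebraMap k K).injective
      rw [← this]
      by_cases hij : i = j
      · subst hij; simp
      · simp [hij]
  · rw [AddMonoidHom.map_trace, ← hval g, Matrix.trace_units_conj']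
  · rw [RingHom.map_det, RingHom.mapMatrix_apply, ← hval g, Matrix.det_units_conj']

theorem finite_range_toMat (ρ : G →* GL (Fin 2) K) (hfin : (Set.range ρ).Finite) :
    (Set.range (toMat ρ)).Finite := by
  have : Set.range (toMat ρ) =
      (fun x : GL (Fin 2) K => (x : Matrix (Fin 2) (Fin 2) K)) '' Set.range ρ := by
    ext m
    constructor
    · rintro ⟨g, rfl⟩
      exact ⟨ρ g, ⟨g, rfl⟩, rfl⟩
    · rintro ⟨_, ⟨g, rfl⟩, rfl⟩
      exact ⟨g, rfl⟩
  rw [this]
  exact hfin.image _

/-- **Realisability over a finite subfield, conjugation form, finite image.** -/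
theorem exists_conj_hom_of_finite_range [Finite k] (h2 : (2 : k) ≠ 0) (ρ : G →* GL (Fin 2) K)
    (hfin : (Set.range ρ).Finite) (hss : WeakSS ρ)
    (htr : ∀ g, ((ρ g : GL (Fin 2) K) : Matrix (Fin 2) (Fin 2) K).trace ∈
      (algebraMap k K).range) :
    ∃ (P : GL (Fin 2) K) (ρ₀ : G →* GL (Fin 2) k), WeakSS ρ₀ ∧
      ∀ g, P⁻¹ * ρ g * P = Matrix.GeneralLinearGroup.map (algebraMap k K) (ρ₀ g) := by
  obtain ⟨P, hP, hm⟩ := exists_conj_of_finite h2 (toMat ρ)
    (finite_adjoin_of_finite_range (k := k) (toMat ρ) (finite_range_toMat ρ hfin)) hss htr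
  exact conj_hom_of_conj ρ hss hP hm

/-- **Realisability over a finite subfield, finite image.**  `k` a finite field with `2 ≠ 0`, `K`
any field over `k` (e.g. an algebraic closure), `ρ : G → GL₂(K)` with finite image, weakly
semisimple, with all traces in `k`.  Then there is a weakly semisimple `ρ₀ : G → GL₂(k)` with the
same kernel, the same traces and the same determinants. -/
theorem exists_realisation_of_finite_range [Finite k] (h2 : (2 : k) ≠ 0) (ρ : G →* GL (Fin 2) K)
    (hfin : (Set.range ρ).Finite) (hss : WeakSS ρ)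
    (htr : ∀ g, ((ρ g : GL (Fin 2) K) : Matrix (Fin 2) (Fin 2) K).trace ∈
      (algebraMap k K).range) :
    ∃ ρ₀ : G →* GL (Fin 2) k, WeakSS ρ₀ ∧ (∀ g, ρ₀ g = 1 ↔ ρ g = 1) ∧
      (∀ g, algebraMap k K ((ρ₀ g : GL (Fin 2) k) : Matrix (Fin 2) (Fin 2) k).trace =
        ((ρ g : GL (Fin 2) K) : Matrix (Fin 2) (Fin 2) K).trace) ∧
      (∀ g, algebraMap k K ((ρ₀ g : GL (Fin 2) k) : Matrix (Fin 2) (Fin 2) k).det =
        ((ρ g : GL (Fin 2) K) : Matrix (Fin 2) (Fin 2) K).det) :=
  realisation_of_conj_hom ρ (exists_conj_hom_of_finite_range h2 ρ hfin hss htr)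

/-- Ring homomorphism form (no `Algebra` instance needed), hypotheses in existential form. -/
theorem exists_realisation_ringHom_of_finite_range {k K G : Type*} [Field k] [Finite k] [Field K]
    [Group G] (f : k →+* K) (h2 : (2 : k) ≠ 0) (ρ : G →* GL (Fin 2) K)
    (hfin : (Set.range ρ).Finite) (hss : WeakSS ρ)
    (htr : ∀ g, ∃ a : k, f a = ((ρ g : GL (Fin 2) K) : Matrix (Fin 2) (Fin 2) K).trace) :
    ∃ ρ₀ : G →* GL (Fin 2) k, WeakSS ρ₀ ∧ (∀ g, ρ₀ g = 1 ↔ ρ g = 1) ∧
      (∀ g, f ((ρ₀ g : GL (Fin 2) k) : Matrix (Fin 2) (Fin 2) k).trace =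
        ((ρ g : GL (Fin 2) K) : Matrix (Fin 2) (Fin 2) K).trace) ∧
      (∀ g, f ((ρ₀ g : GL (Fin 2) k) : Matrix (Fin 2) (Fin 2) k).det =
        ((ρ g : GL (Fin 2) K) : Matrix (Fin 2) (Fin 2) K).det) := by
  let _ : Algebra k K := f.toAlgebra
  exact exists_realisation_of_finite_range (k := k) h2 ρ hfin hss htr

/-- A representation of `Gal(ℚ̄/ℚ)`-type that is trivial on a finite index subgroup has finite
range; here in the abstract form: trivial on the kernel of a homomorphism to a finite group. -/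
theorem finite_range_of_ker_le {H M : Type*} [Group H] [Finite H] [Monoid M] (π : G →* H)
    (ρ : G →* M) (h : ∀ g, π g = 1 → ρ g = 1) : (Set.range ρ).Finite := by
  classical
  have hfac : ∀ g g' : G, π g = π g' → ρ g = ρ g' := by
    intro g g' hgg
    have h1 : ρ (g'⁻¹ * g) = 1 := h _ (by rw [map_mul, map_inv, hgg, inv_mul_cancel])
    have : ρ g = ρ g' * ρ (g'⁻¹ * g) := by
      rw [← map_mul, mul_inv_cancel_left]
    rw [this, h1, mul_one]
  have hsub : Set.range ρ ⊆ Set.range fun x : H =>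
      if hx : ∃ g, π g = x then ρ hx.choose else 1 := by
    rintro _ ⟨g, rfl⟩
    refine ⟨π g, ?_⟩
    have hx : ∃ g', π g' = π g := ⟨g, rfl⟩
    simp only [hx, dite_true]
    exact hfac _ _ hx.choose_spec
  exact (Set.finite_range _).subset hsub

end Fermat.Agent.S48x.Realise
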